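/-
S14, block DENSITY, piece (N3) in the exact shape `Fermat.Agent.S14.H34.KummerBound K` of
helper34's interface (helper703): adapter over helper850's landed
`Fermat.Agent.S14.N3H850.kummer_density_bound`.
-/
import Fermat.Agent.S14.H34.Interface
import Fermat.Agent.S14.N3H850.Main

set_option autoImplicit false

namespace Fermat.Agent.S14.H703

open NumberField Ideal nonZeroDivisors IsDedekindDomain
open Fermat.Agent.S14.H34

noncomputable section

variable (K : Type*) [Field K] [NumberField K]

/-- **(N3)** in the shape of helper34's interface. -/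
theorem kummerBound : KummerBound K := by
  classical
  intro p hp ζ hζ η hη
  -- lift `ζ` to the ring of integers
  have hζint : IsIntegral ℤ ζ := hζ.isIntegral hp.pos
  let ζ' : 𝓞 K := ⟨ζ, hζint⟩
  have hζ' : IsPrimitiveRoot ζ' p := by
    have h : IsPrimitiveRoot (algebraMap (𝓞 K) K ζ') p := hζ
    exact IsPrimitiveRoot.of_map_of_injective (f := algebraMap (𝓞 K) K) h
      RingOfIntegers.coe_injective
  obtain ⟨C, hC, hb⟩ := N3H850.kummer_density_bound K hp ζ' η hζ' hη
  refine ⟨C, 1, hC, one_pos, fun s hs1 hs2 T hT => ?_⟩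
  have hinj : Set.InjOn (fun v : HeightOneSpectrum (𝓞 K) => v.asIdeal) (T : Set _) :=
    fun v _ w _ h => HeightOneSpectrum.ext h
  have h := hb s hs1 (by linarith) (T.image fun v => v.asIdeal) (by
    intro Q hQ
    obtain ⟨v, hv, rfl⟩ := Finset.mem_image.mp hQ
    exact ⟨v.isPrime, v.ne_bot, (hT v hv).1, (hT v hv).2.1, (hT v hv).2.2⟩)
  rw [Finset.prod_image hinj] at h
  rw [← Finset.prod_pow]
  exact h

end

end Fermat.Agent.S14.H703
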