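/-
S14, block DENSITY, piece (Z) (helper703): the two-sided bound `c/(s-1) ≤ ζ_K(s) ≤ C/(s-1)` near
`s = 1` for the zeta function written as a sum over the nonzero ideals, in the exact shape
`Fermat.Agent.S14.H34.ZetaBounds K` of helper34's interface.

Input: Mathlib's class number formula `NumberField.tendsto_sub_one_mul_dedekindZeta_nhdsGT`.
-/
import Fermat.Agent.S14.H34.Interface

set_option autoImplicit false

namespace Fermat.Agent.S14.H703

open NumberField Ideal nonZeroDivisors IsDedekindDomain Filter Topology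
open Fermat.Agent.S14.H34

noncomputable section

variable (K : Type*) [Field K] [NumberField K]

/-- The coefficients of the Dedekind zeta function. -/
def idealCount (n : ℕ) : ℕ := Nat.card {I : Ideal (𝓞 K) // absNorm I = n}

theorem tendsto_sum_idealCount_div :
    Tendsto (fun n : ℕ ↦ (∑ k ∈ Finset.Icc 1 n, (idealCount K k : ℝ)) / (n : ℝ)) atTop
      (𝓝 (dedekindZeta_residue K)) := by
  refine ((Ideal.tendsto_norm_le_div_atTop₀ K).comp tendsto_natCast_atTop_atTop).congr fun n ↦ ?_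
  simp only [Function.comp_apply, Nat.cast_le, ← Nat.cast_sum, idealCount]
  congr
  rw [← add_left_inj 1, ← card_norm_le_eq_card_norm_le_add_one,
    show Finset.Icc 1 n = Finset.Ioc 0 n from Finset.Icc_succ_left_eq_Ioc _ _,
    show 1 = Nat.card {I : Ideal (𝓞 K) // absNorm I = 0} by simp [Ideal.absNorm_eq_zero_iff],
    Finset.sum_Ioc_add_eq_sum_Icc (n.zero_le),
    ← Finset.card_preimage_eq_sum_card_image_eq (fun k _ ↦ finite_setOfPred_absNorm_eq k)]
  simp [Set.coe_eq_subtype]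

theorem lseriesSummable_idealCount {s : ℝ} (hs : 1 < s) :
    LSeriesSummable (fun n ↦ ((idealCount K n : ℝ) : ℂ)) (s : ℂ) := by
  refine LSeriesSummable_of_sum_norm_bigO_and_nonneg ?_ (fun _ => Nat.cast_nonneg _) zero_le_one
    (by simpa using hs)
  exact Asymptotics.isBigO_atTop_natCast_rpow_of_tendsto_div_rpow (a := dedekindZeta_residue K)
    (by simpa using tendsto_sum_idealCount_div K)

/-- The real Dirichlet series `∑ a(n) n^{-s}` of the ideal counts. -/
def coeffTerm (s : ℝ) (n : ℕ) : ℝ := (idealCount K n : ℝ) * (n : ℝ) ^ (-s)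

theorem coeffTerm_nonneg (s : ℝ) (n : ℕ) : 0 ≤ coeffTerm K s n :=
  mul_nonneg (Nat.cast_nonneg _) (Real.rpow_nonneg (Nat.cast_nonneg _) _)

theorem term_eq_coeffTerm {s : ℝ} (hs : 1 < s) (n : ℕ) :
    LSeries.term (fun n ↦ ((idealCount K n : ℝ) : ℂ)) (s : ℂ) n = ((coeffTerm K s n : ℝ) : ℂ) := by
  rcases eq_or_ne n 0 with rfl | hn
  · have hs0 : -s ≠ 0 := by linarith
    simp [coeffTerm, Real.zero_rpow hs0]
  · rw [LSeries.term_of_ne_zero hn, coeffTerm]
    have h1 : ((n : ℂ)) ^ (s : ℂ) = (((n : ℝ) ^ s : ℝ) : ℂ) := by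
      rw [Complex.ofReal_cpow (Nat.cast_nonneg n)]
      simp
    rw [h1, Real.rpow_neg (Nat.cast_nonneg n)]
    push_cast
    rw [div_eq_mul_inv]

theorem summable_coeffTerm {s : ℝ} (hs : 1 < s) : Summable (coeffTerm K s) := by
  have h := lseriesSummable_idealCount K hs
  rw [LSeriesSummable] at h
  have h2 : Summable fun n => ((coeffTerm K s n : ℝ) : ℂ) :=
    h.congr fun n => term_eq_coeffTerm K hs n
  exact Complex.summable_ofReal.mp h2

theorem dedekindZeta_eq_tsum_coeffTerm {s : ℝ} (hs : 1 < s) :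
    dedekindZeta K (s : ℂ) = ((∑' n, coeffTerm K s n : ℝ) : ℂ) := by
  rw [dedekindZeta, LSeries, Complex.ofReal_tsum]
  refine tsum_congr fun n => ?_
  have := term_eq_coeffTerm K hs n
  simpa [idealCount] using this

/-- The norm map on nonzero ideals. -/
def nrmMap (I : (Ideal (𝓞 K))⁰) : ℕ := absNorm (I : Ideal (𝓞 K))

/-- The fibre of the norm over `n ≠ 0` among the nonzero ideals is the fibre among all ideals. -/
def fiberEquiv {n : ℕ} (hn : n ≠ 0) :
    {I : (Ideal (𝓞 K))⁰ // nrmMap K I = n} ≃ {I : Ideal (𝓞 K) // absNorm I = n} where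
  toFun I := ⟨I.1.1, I.2⟩
  invFun I := ⟨⟨I.1, mem_nonZeroDivisors_of_ne_zero (by
    rintro h
    have := I.2
    rw [h] at this
    simp at this
    exact hn this.symm)⟩, I.2⟩
  left_inv I := rfl
  right_inv I := rfl

theorem isEmpty_fiber_zero : IsEmpty {I : (Ideal (𝓞 K))⁰ // nrmMap K I = 0} := by
  constructor
  rintro ⟨I, hI⟩
  have h0 : (I : Ideal (𝓞 K)) = ⊥ := by
    simpa [nrmMap, Ideal.absNorm_eq_zero_iff] using hI
  exact (nonZeroDivisors.coe_ne_zero I) h0

instance finite_fiber (n : ℕ) : Finite {I : (Ideal (𝓞 K))⁰ // nrmMap K I = n} := by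
  rcases eq_or_ne n 0 with rfl | hn
  · have := isEmpty_fiber_zero K
    infer_instance
  · have : Finite {I : Ideal (𝓞 K) // absNorm I = n} :=
      (finite_setOfPred_absNorm_eq (S := 𝓞 K) n).to_subtype
    exact Finite.of_equiv _ (fiberEquiv K hn).symm

theorem card_fiber_mul {s : ℝ} (hs : 1 < s) (n : ℕ) :
    (Nat.card {I : (Ideal (𝓞 K))⁰ // nrmMap K I = n} : ℝ) * (n : ℝ) ^ (-s) = coeffTerm K s n := by
  rcases eq_or_ne n 0 with rfl | hn
  · have := isEmpty_fiber_zero K
    have hs0 : -s ≠ 0 := by linarith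
    simp [coeffTerm, Real.zero_rpow hs0]
  · rw [Nat.card_congr (fiberEquiv K hn), coeffTerm, idealCount]

theorem summable_nrm_and_zetaI_eq {s : ℝ} (hs : 1 < s) :
    Summable (nrm K s) ∧ zetaI K s = ∑' n, coeffTerm K s n := by
  let e := Equiv.sigmaFiberEquiv (nrmMap K)
  have hval : ∀ (n : ℕ) (I : {I : (Ideal (𝓞 K))⁰ // nrmMap K I = n}),
      nrm K s (e ⟨n, I⟩) = (n : ℝ) ^ (-s) := by
    rintro n ⟨I, hI⟩
    simp only [e, Equiv.sigmaFiberEquiv_apply, nrm]
    rw [← hI, nrmMap]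
  have hinner : ∀ n : ℕ, Summable fun I : {I : (Ideal (𝓞 K))⁰ // nrmMap K I = n} =>
      nrm K s (e ⟨n, I⟩) := fun n => Summable.of_finite
  have hinner_sum : ∀ n : ℕ, ∑' I : {I : (Ideal (𝓞 K))⁰ // nrmMap K I = n},
      nrm K s (e ⟨n, I⟩) = coeffTerm K s n := by
    intro n
    simp_rw [hval]
    rw [tsum_const, nsmul_eq_mul, card_fiber_mul K hs]
  have hsig : Summable (fun p : (Σ n : ℕ, {I : (Ideal (𝓞 K))⁰ // nrmMap K I = n}) =>
      nrm K s (e p)) := by
    refine (summable_sigma_of_nonneg (fun p => ?_)).mpr ⟨hinner, ?_⟩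
    · exact Real.rpow_nonneg (Nat.cast_nonneg _) _
    · simpa [hinner_sum] using summable_coeffTerm K hs
  have hsum : Summable (nrm K s) := (Equiv.summable_iff e).mp hsig
  refine ⟨hsum, ?_⟩
  rw [zetaI, ← e.tsum_eq, hsig.tsum_sigma' hinner]
  exact tsum_congr hinner_sum

theorem zetaI_eq_dedekindZeta {s : ℝ} (hs : 1 < s) :
    ((zetaI K s : ℝ) : ℂ) = dedekindZeta K (s : ℂ) := by
  rw [dedekindZeta_eq_tsum_coeffTerm K hs, (summable_nrm_and_zetaI_eq K hs).2]

theorem tendsto_sub_one_mul_zetaI :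
    Tendsto (fun s : ℝ => (s - 1) * zetaI K s) (𝓝[>] 1) (𝓝 (dedekindZeta_residue K)) := by
  have h := tendsto_sub_one_mul_dedekindZeta_nhdsGT K
  have h2 : Tendsto (fun s : ℝ => (((s - 1) * zetaI K s : ℝ) : ℂ)) (𝓝[>] 1)
      (𝓝 ((dedekindZeta_residue K : ℝ) : ℂ)) := by
    refine h.congr' ?_
    filter_upwards [self_mem_nhdsWithin] with s hs
    rw [Complex.ofReal_mul, zetaI_eq_dedekindZeta K hs]
    push_cast
    rfl
  exact (Complex.continuous_re.tendsto _).comp h2

/-- **(Z)**: the pole of the zeta function, two-sided bound near `1`. -/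
theorem zetaBounds : ZetaBounds K := by
  have hρ := dedekindZeta_residue_pos K
  have h := tendsto_sub_one_mul_zetaI K
  have hev : ∀ᶠ s in 𝓝[>] (1 : ℝ), dedekindZeta_residue K / 2 < (s - 1) * zetaI K s ∧
      (s - 1) * zetaI K s < 2 * dedekindZeta_residue K :=
    (h.eventually (lt_mem_nhds (by linarith))).and (h.eventually (gt_mem_nhds (by linarith)))
  obtain ⟨u, hu, hsub⟩ := mem_nhdsGT_iff_exists_Ioo_subset.mp hev
  refine ⟨dedekindZeta_residue K / 2, 2 * dedekindZeta_residue K, u - 1, by positivity,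
    by simpa using hu, fun s hs1 hs2 => ?_⟩
  have hmem : s ∈ Set.Ioo (1 : ℝ) u := ⟨hs1, by linarith⟩
  obtain ⟨h1, h2⟩ := hsub hmem
  have hpos : 0 < s - 1 := by linarith
  constructor
  · rw [div_le_iff₀ hpos]
    linarith [mul_comm (zetaI K s) (s - 1)]
  · rw [le_div_iff₀ hpos]
    linarith [mul_comm (zetaI K s) (s - 1)]

end

end Fermat.Agent.S14.H703
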